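/-
S55, layer G, leaf G-DESC (Galois descent for the `S`-idèle class group), helper537.
Part 1: base change `𝔸_S(K) → 𝔸_S(L)` and Galois invariants of `𝔸_S(L)` and of `J_S(L)`.

`K ⊂ L` fields of characteristic `0`, `G` a finite group with `IsGaloisGroup G K L`.
* `asBC K L S : AS S K →ₐ[ℚ] AS S L` (injective), `asAut_asBC` (image is `G`-invariant);
* `exists_asBC_eq_of_invariant` : `(L ⊗ ℚ_S)^G = K ⊗ ℚ_S`;
* `jBC K L S : J_S(K) → J_S(L)` (additive), `jBC_injective`, `exists_jBC_eq_of_invariant`.
-/
import Mathlib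
import Fermat.Agent.S55.G.Defs

set_option autoImplicit false

open scoped TensorProduct

noncomputable section

namespace Fermat.Agent.S55.G.DescH537

section Tensor

variable (G K L : Type) [Group G] [Field K] [Field L] [Algebra K L]
  [CharZero K] [CharZero L] [MulSemiringAction G L]
variable (S : Finset Nat.Primes)

/-- The inclusion `K → L` as a `ℚ`-algebra homomorphism. -/
def ratIncl : K →ₐ[ℚ] L := (algebraMap K L).toRatAlgHom

@[simp] lemma ratIncl_apply (x : K) : ratIncl K L x = algebraMap K L x := rfl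

/-- Base change of `S`-adèles `𝔸_S(K) = K ⊗ ℚ_S → L ⊗ ℚ_S = 𝔸_S(L)`. -/
def asBC : AS S K →ₐ[ℚ] AS S L := Algebra.TensorProduct.map (ratIncl K L) (AlgHom.id ℚ (QS S))

@[simp] lemma asBC_tmul (x : K) (y : QS S) :
    asBC K L S (x ⊗ₜ[ℚ] y) = algebraMap K L x ⊗ₜ[ℚ] y := by
  simp [asBC]

lemma asBC_asDiag (x : K) : asBC K L S (asDiag S K x) = asDiag S L (algebraMap K L x) := by
  simp

lemma asBC_injective : Function.Injective (asBC K L S) := by
  have h : Function.Injective ((ratIncl K L).toLinearMap.rTensor (QS S)) :=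
    Module.Flat.rTensor_preserves_injective_linearMap _ (algebraMap K L).injective
  intro a b hab
  apply h
  have key : ∀ z : AS S K, (ratIncl K L).toLinearMap.rTensor (QS S) z = asBC K L S z := by
    intro z
    induction z using TensorProduct.induction_on with
    | zero => simp
    | tmul x y => simp
    | add a b ha hb => simp only [map_add, ha, hb]
  rw [key, key, hab]

variable [IsGaloisGroup G K L]

lemma asAut_asBC (g : G) (z : AS S K) : asAut S G L g (asBC K L S z) = asBC K L S z := by
  induction z using TensorProduct.induction_on with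
  | zero => simp
  | tmul x y => simp [smul_algebraMap]
  | add a b ha hb => simp only [map_add, ha, hb]

lemma sum_asAut_mem_range [Fintype G] (z : AS S L) :
    ∃ y : AS S K, asBC K L S y = ∑ g : G, asAut S G L g z := by
  induction z using TensorProduct.induction_on with
  | zero => exact ⟨0, by simp⟩
  | tmul x n =>
    have hinv : ∀ h : G, h • (∑ g : G, g • x) = ∑ g : G, g • x := by
      intro h
      rw [Finset.smul_sum]
      exact Fintype.sum_equiv (Equiv.mulLeft h) _ _ (fun g => by simp [mul_smul])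
    obtain ⟨k, hk⟩ := Algebra.IsInvariant.isInvariant (A := K) (∑ g : G, g • x) hinv
    refine ⟨k ⊗ₜ[ℚ] n, ?_⟩
    rw [asBC_tmul, hk, TensorProduct.sum_tmul]
    simp
  | add a b ha hb =>
    obtain ⟨ya, hya⟩ := ha
    obtain ⟨yb, hyb⟩ := hb
    exact ⟨ya + yb, by simp [hya, hyb, Finset.sum_add_distrib]⟩

variable [Finite G]

/-- **Galois invariants of the `S`-adèles**: `(L ⊗ ℚ_S)^G = K ⊗ ℚ_S`. -/
theorem exists_asBC_eq_of_invariant (z : AS S L) (hz : ∀ g : G, asAut S G L g z = z) :
    ∃ y : AS S K, asBC K L S y = z := by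
  classical
  let _ : Fintype G := Fintype.ofFinite G
  obtain ⟨y, hy⟩ := sum_asAut_mem_range G K L S z
  have hsum : ∑ g : G, asAut S G L g z = (Fintype.card G : ℚ) • z := by
    simp [hz, Finset.sum_const, Finset.card_univ, Nat.cast_smul_eq_nsmul]
  refine ⟨((Fintype.card G : ℚ)⁻¹) • y, ?_⟩
  rw [map_smul, hy, hsum, smul_smul, inv_mul_cancel₀, one_smul]
  exact Nat.cast_ne_zero.2 Fintype.card_ne_zero

end Tensor

section Units

variable (G K L : Type) [Group G] [Field K] [Field L] [Algebra K L]
  [CharZero K] [CharZero L] [MulSemiringAction G L]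
variable (S : Finset Nat.Primes)

/-- Base change of units `Kˣ → Lˣ`, additively. -/
def unitsBC : Additive Kˣ →+ Additive Lˣ :=
  MonoidHom.toAdditive (Units.map ((algebraMap K L : K →+* L) : K →* L))

omit [CharZero K] [CharZero L] in
lemma coe_unitsBC_apply (x : Additive Kˣ) :
    (((unitsBC K L x).toMul : Lˣ) : L) = algebraMap K L ((x.toMul : Kˣ) : K) := rfl

omit [CharZero K] [CharZero L] in
lemma unitsBC_injective : Function.Injective (unitsBC K L) := by
  intro a b hab
  apply Additive.toMul.injective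
  apply Units.ext
  apply (algebraMap K L).injective
  rw [← coe_unitsBC_apply, ← coe_unitsBC_apply, hab]

/-- Base change of `S`-idèles `J_S(K) → J_S(L)`, additively. -/
def jBC : Additive (AS S K)ˣ →+ Additive (AS S L)ˣ :=
  MonoidHom.toAdditive (Units.map ((asBC K L S : AS S K →ₐ[ℚ] AS S L) : AS S K →* AS S L))

lemma coe_jBC_apply (x : Additive (AS S K)ˣ) :
    (((jBC K L S x).toMul : (AS S L)ˣ) : AS S L) =
      asBC K L S ((x.toMul : (AS S K)ˣ) : AS S K) := rfl

lemma jBC_injective : Function.Injective (jBC K L S) := by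
  intro a b hab
  apply Additive.toMul.injective
  apply Units.ext
  apply asBC_injective K L S
  rw [← coe_jBC_apply, ← coe_jBC_apply, hab]

lemma jBC_unitsDiag (x : Additive Kˣ) :
    jBC K L S (unitsDiag S K x) = unitsDiag S L (unitsBC K L x) := by
  apply Additive.toMul.injective
  apply Units.ext
  rw [coe_jBC_apply, coe_unitsDiag_apply, coe_unitsDiag_apply, coe_unitsBC_apply, asBC_asDiag]

variable [IsGaloisGroup G K L]

omit [CharZero K] [CharZero L] in
lemma lRepr_unitsBC (g : G) (x : Additive Kˣ) :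
    lRepr G L g (unitsBC K L x) = unitsBC K L x := by
  apply Additive.toMul.injective
  apply Units.ext
  rw [coe_lRepr_apply, coe_unitsBC_apply, smul_algebraMap]

lemma jRepr_jBC (g : G) (x : Additive (AS S K)ˣ) :
    jRepr G S L g (jBC K L S x) = jBC K L S x := by
  apply Additive.toMul.injective
  apply Units.ext
  rw [coe_jRepr_apply, coe_jBC_apply, asAut_asBC]

omit [CharZero K] [CharZero L] in
/-- Galois invariants of `Lˣ`. -/
theorem exists_unitsBC_eq_of_invariant (u : Additive Lˣ) (hu : ∀ g : G, lRepr G L g u = u) :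
    ∃ y : Additive Kˣ, unitsBC K L y = u := by
  have hinv : ∀ g : G, g • ((u.toMul : Lˣ) : L) = ((u.toMul : Lˣ) : L) := by
    intro g
    rw [← coe_lRepr_apply, hu]
  obtain ⟨k, hk⟩ := Algebra.IsInvariant.isInvariant (A := K) ((u.toMul : Lˣ) : L) hinv
  have hk0 : k ≠ 0 := by
    rintro rfl
    rw [map_zero] at hk
    exact (Units.ne_zero (u.toMul : Lˣ)) hk.symm
  refine ⟨Additive.ofMul (Units.mk0 k hk0), ?_⟩
  apply Additive.toMul.injective
  apply Units.ext
  rw [coe_unitsBC_apply]
  exact hk

variable [Finite G]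

/-- **Galois invariants of the `S`-idèles**: `J_S(L)^G = J_S(K)`. -/
theorem exists_jBC_eq_of_invariant (u : Additive (AS S L)ˣ)
    (hu : ∀ g : G, jRepr G S L g u = u) : ∃ y : Additive (AS S K)ˣ, jBC K L S y = u := by
  have h1 : ∀ g : G, asAut S G L g ((u.toMul : (AS S L)ˣ) : AS S L) =
      ((u.toMul : (AS S L)ˣ) : AS S L) := by
    intro g
    rw [← coe_jRepr_apply, hu]
  have h2 : ∀ g : G, asAut S G L g (((u.toMul)⁻¹ : (AS S L)ˣ) : AS S L) =
      (((u.toMul)⁻¹ : (AS S L)ˣ) : AS S L) := by
    intro g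
    have hu' : jRepr G S L g (-u) = -u := by rw [map_neg, hu]
    rw [← toMul_neg, ← coe_jRepr_apply, hu']
  obtain ⟨a, ha⟩ := exists_asBC_eq_of_invariant G K L S _ h1
  obtain ⟨b, hb⟩ := exists_asBC_eq_of_invariant G K L S _ h2
  have hab : a * b = 1 := by
    apply asBC_injective K L S
    rw [map_mul, ha, hb, map_one, Units.mul_inv]
  have hba : b * a = 1 := by rw [mul_comm, hab]
  refine ⟨Additive.ofMul ⟨a, b, hab, hba⟩, ?_⟩
  apply Additive.toMul.injective
  apply Units.ext
  rw [coe_jBC_apply]
  exact ha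

end Units

end Fermat.Agent.S55.G.DescH537
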