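/-
S55, layer G, leaf G-DESC (Galois descent for the `S`-idèle class group), helper537.
Part 2: base change of divisors prime to `S` and Galois-invariant divisors.

`K ⊂ L` number fields, `G` finite with `IsGaloisGroup G K L`.
* `belowOut S K L : PrimeOut S L → PrimeOut S K` (the prime below), surjective, finite fibres,
  fibres = `G`-orbits (`exists_primeOutMap_eq_of_belowOut_eq`);
* `eIdx K L w` the ramification index of `w` over `K`; `ordAt_unitsBC`;
* `divBC S K L : Div^S(K) →+ Div^S(L)`, `v ↦ ∑_{w | v} e(w|v) w`; `ordHom_unitsBC`,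
  `divBC_injective`, `divRepr_divBC`;
* `exists_divBC_eq_of_invariant` : if `L/K` is unramified outside `S` then
  `Div^S(L)^G = Div^S(K)`.
-/
import Mathlib
import Fermat.Agent.S55.G.Defs
import Fermat.Agent.S55.G.DescH537.Tensor

set_option autoImplicit false
set_option linter.unusedSectionVars false

open scoped NumberField
open IsDedekindDomain

noncomputable section

namespace Fermat.Agent.S55.G.DescH537

section Below

variable (S : Finset Nat.Primes) (G K L : Type) [Group G] [Field K] [Field L]
  [NumberField K] [NumberField L] [Algebra K L] [MulSemiringAction G L]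

/-- The prime of `K` below a prime of `L`. -/
def below (w : HeightOneSpectrum (𝓞 L)) : HeightOneSpectrum (𝓞 K) := w.under (𝓞 K)

lemma below_asIdeal (w : HeightOneSpectrum (𝓞 L)) :
    (below K L w).asIdeal = w.asIdeal.under (𝓞 K) := rfl

instance liesOver_below (w : HeightOneSpectrum (𝓞 L)) :
    w.asIdeal.LiesOver (below K L w).asIdeal := ⟨rfl⟩

lemma isAbove_below_iff (w : HeightOneSpectrum (𝓞 L)) :
    IsAbove S K (below K L w) ↔ IsAbove S L w := by
  unfold IsAbove
  refine exists_congr fun q => and_congr_right fun _ => ?_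
  rw [below_asIdeal, Ideal.under_def, Ideal.mem_comap, map_natCast]

/-- The prime of `K` below a prime of `L` not above `S`. -/
def belowOut (w : PrimeOut S L) : PrimeOut S K :=
  ⟨below K L w.1, fun h => w.2 ((isAbove_below_iff S K L w.1).1 h)⟩

lemma belowOut_val (w : PrimeOut S L) : (belowOut S K L w).1 = below K L w.1 := rfl

lemma belowOut_surjective : Function.Surjective (belowOut S K L) := by
  rintro ⟨v, hv⟩
  obtain ⟨P, hP, hPv⟩ := Ideal.exists_ideal_over_prime_of_isIntegral_of_isDomain (S := 𝓞 L)
    v.asIdeal (by simp)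
  have hP0 : P ≠ ⊥ := by
    rintro rfl
    apply v.ne_bot
    rw [← hPv]
    exact Ideal.comap_bot_of_injective _ (FaithfulSMul.algebraMap_injective (𝓞 K) (𝓞 L))
  let w : HeightOneSpectrum (𝓞 L) := ⟨P, hP, hP0⟩
  have hwv : below K L w = v := HeightOneSpectrum.ext hPv
  exact ⟨⟨w, fun h => hv (hwv ▸ (isAbove_below_iff S K L w).2 h)⟩, Subtype.ext hwv⟩

lemma finite_fiber_belowOut (v : PrimeOut S K) : {w : PrimeOut S L | belowOut S K L w = v}.Finite := by
  have hfin := IsDedekindDomain.primesOver_finite v.1.asIdeal (𝓞 L)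
  have hinj : Function.Injective (fun w : PrimeOut S L => w.1.asIdeal) := fun a b h =>
    Subtype.ext (HeightOneSpectrum.ext h)
  refine Set.Finite.of_finite_image (hfin.subset ?_) hinj.injOn
  rintro _ ⟨w, hw, rfl⟩
  refine ⟨w.1.isPrime, ⟨?_⟩⟩
  have : (belowOut S K L w).1 = v.1 := congrArg Subtype.val hw
  rw [← this]
  rfl

variable [IsGaloisGroup G K L]

lemma below_primeSMul (g : G) (w : HeightOneSpectrum (𝓞 L)) :
    below K L (primeSMul G g w) = below K L w :=
  HeightOneSpectrum.ext (Ideal.under_smul (𝓞 K) w.asIdeal g)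

lemma belowOut_primeOutMap (g : G) (w : PrimeOut S L) :
    belowOut S K L (primeOutMap S G L g w) = belowOut S K L w :=
  Subtype.ext (below_primeSMul G K L g w.1)

variable [Finite G]

/-- The fibres of `belowOut` are `G`-orbits. -/
lemma exists_primeOutMap_eq_of_belowOut_eq (w w' : PrimeOut S L)
    (h : belowOut S K L w = belowOut S K L w') : ∃ g : G, primeOutMap S G L g w = w' := by
  have h' : w.1.asIdeal.under (𝓞 K) = w'.1.asIdeal.under (𝓞 K) :=
    congrArg (fun v : PrimeOut S K => v.1.asIdeal) h
  have := w.1.isPrime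
  have := w'.1.isPrime
  obtain ⟨g, hg⟩ := Algebra.IsInvariant.exists_smul_of_under_eq (𝓞 K) (𝓞 L) G
    w.1.asIdeal w'.1.asIdeal h'
  exact ⟨g, Subtype.ext (HeightOneSpectrum.ext hg.symm)⟩

end Below

section Ord

variable (S : Finset Nat.Primes) (G K L : Type) [Group G] [Field K] [Field L]
  [NumberField K] [NumberField L] [Algebra K L] [MulSemiringAction G L]

/-- The ramification index of the prime `w` of `L` over `K`. -/
def eIdx (w : HeightOneSpectrum (𝓞 L)) : ℕ :=
  (below K L w).asIdeal.ramificationIdx' w.asIdeal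

lemma eIdx_ne_zero (w : HeightOneSpectrum (𝓞 L)) : eIdx K L w ≠ 0 :=
  Ideal.IsDedekindDomain.ramificationIdx'_ne_zero_of_liesOver w.asIdeal (below K L w).ne_bot

/-- `ord_w(x) = e(w|v) ord_v(x)` for `x ∈ Kˣ`. -/
lemma ordAt_unitsBC (w : HeightOneSpectrum (𝓞 L)) (x : Additive Kˣ) :
    ordAt w (unitsBC K L x) = eIdx K L w * ordAt (below K L w) x := by
  rw [ordAt_apply, ordAt_apply, coe_unitsBC_apply,
    ← HeightOneSpectrum.valuation_liesOver L (below K L w) w, WithZero.log_pow]
  simp only [eIdx, nsmul_eq_mul, mul_neg]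

variable [IsGaloisGroup G K L]

/-- The ramification index is constant on Galois orbits. -/
lemma eIdx_primeSMul (g : G) (w : HeightOneSpectrum (𝓞 L)) :
    eIdx K L (primeSMul G g w) = eIdx K L w := by
  obtain ⟨π, hπ⟩ := HeightOneSpectrum.valuation_exists_uniformizer K (below K L w)
  have hπ0 : π ≠ 0 := by
    rintro rfl
    rw [map_zero] at hπ
    exact WithZero.exp_ne_zero hπ.symm
  let x : Additive Kˣ := Additive.ofMul (Units.mk0 π hπ0)
  have hx : ordAt (below K L w) x = 1 := by
    rw [ordAt_apply]
    change -WithZero.log ((below K L w).valuation K π) = 1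
    rw [hπ]
    simp
  have h1 := ordAt_unitsBC K L w x
  have h2 := ordAt_unitsBC K L (primeSMul G g w) x
  rw [below_primeSMul, hx, mul_one] at h2
  rw [hx, mul_one] at h1
  have h3 : ordAt (primeSMul G g w) (unitsBC K L x) = ordAt w (unitsBC K L x) := by
    conv_lhs => rw [← lRepr_unitsBC G K L g x]
    exact ordAt_primeSMul G g w _
  exact_mod_cast (h2.symm.trans (h3.trans h1))

end Ord

section DivBC

variable (S : Finset Nat.Primes) (G K L : Type) [Group G] [Field K] [Field L]
  [NumberField K] [NumberField L] [Algebra K L] [MulSemiringAction G L]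

lemma finite_support_divBC (d : PrimeOut S K →₀ ℤ) :
    (Function.support fun w : PrimeOut S L =>
      (eIdx K L w.1 : ℤ) * d (belowOut S K L w)).Finite := by
  have hsub : (Function.support fun w : PrimeOut S L =>
      (eIdx K L w.1 : ℤ) * d (belowOut S K L w)) ⊆
      ⋃ v ∈ d.support, {w : PrimeOut S L | belowOut S K L w = v} := by
    intro w hw
    simp only [Function.mem_support, ne_eq, mul_eq_zero, not_or] at hw
    simp only [Set.mem_iUnion]
    exact ⟨belowOut S K L w, Finsupp.mem_support_iff.2 hw.2, rfl⟩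
  exact (Set.Finite.biUnion d.support.finite_toSet
    (fun v _ => finite_fiber_belowOut S K L v)).subset hsub

/-- Base change of divisors prime to `S`: `v ↦ ∑_{w | v} e(w|v) w`, i.e.
`(divBC d) w = e(w) * d (w ∩ K)`. -/
def divBC : (PrimeOut S K →₀ ℤ) →+ (PrimeOut S L →₀ ℤ) where
  toFun d := Finsupp.ofSupportFinite _ (finite_support_divBC S K L d)
  map_zero' := by
    ext w
    simp [Finsupp.ofSupportFinite_coe]
  map_add' a b := by
    ext w
    simp [Finsupp.ofSupportFinite_coe, mul_add]

@[simp] lemma divBC_apply (d : PrimeOut S K →₀ ℤ) (w : PrimeOut S L) :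
    divBC S K L d w = eIdx K L w.1 * d (belowOut S K L w) := rfl

/-- Compatibility of the divisor maps with base change. -/
lemma ordHom_unitsBC (x : Additive Kˣ) :
    ordHom S L (unitsBC K L x) = divBC S K L (ordHom S K x) := by
  ext w
  rw [ordHom_apply, divBC_apply, ordHom_apply, ordAt_unitsBC]
  rfl

lemma divBC_injective : Function.Injective (divBC S K L) := by
  rw [injective_iff_map_eq_zero]
  intro d hd
  ext v
  obtain ⟨w, rfl⟩ := belowOut_surjective S K L v
  have := DFunLike.congr_fun hd w
  rw [divBC_apply] at this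
  simpa [eIdx_ne_zero] using this

variable [IsGaloisGroup G K L]

/-- The image of base change consists of Galois-invariant divisors. -/
lemma divRepr_divBC (g : G) (d : PrimeOut S K →₀ ℤ) :
    divRepr S G L g (divBC S K L d) = divBC S K L d := by
  ext w
  have hw : w = primeOutMap S G L g (primeOutMap S G L g⁻¹ w) := by
    rw [← primeOutMap_mul, mul_inv_cancel, primeOutMap_one]
  rw [hw, divRepr_apply_apply, divBC_apply, divBC_apply]
  simp only [belowOut_primeOutMap, primeOutMap_val, eIdx_primeSMul]

variable [Finite G]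

/-- **Galois-invariant divisors.** If `L/K` is unramified outside `S`, every `G`-invariant
divisor of `L` prime to `S` comes from `K`. -/
theorem exists_divBC_eq_of_invariant (hunr : ∀ w : PrimeOut S L, eIdx K L w.1 = 1)
    (d : PrimeOut S L →₀ ℤ) (hd : ∀ g : G, divRepr S G L g d = d) :
    ∃ d' : PrimeOut S K →₀ ℤ, divBC S K L d' = d := by
  classical
  have hinv : ∀ (g : G) (w : PrimeOut S L), d (primeOutMap S G L g w) = d w := by
    intro g w
    conv_lhs => rw [← hd g]
    exact divRepr_apply_apply S G L g d w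
  let σ : PrimeOut S K → PrimeOut S L := fun v => (belowOut_surjective S K L v).choose
  have hσ : ∀ v, belowOut S K L (σ v) = v := fun v => (belowOut_surjective S K L v).choose_spec
  have hfin : (Function.support fun v => d (σ v)).Finite := by
    refine (d.support.finite_toSet.image (belowOut S K L)).subset ?_
    intro v hv
    exact ⟨σ v, Finsupp.mem_support_iff.2 hv, hσ v⟩
  refine ⟨Finsupp.ofSupportFinite _ hfin, ?_⟩
  ext w
  rw [divBC_apply, hunr w, Nat.cast_one, one_mul, Finsupp.ofSupportFinite_coe]
  obtain ⟨g, hg⟩ := exists_primeOutMap_eq_of_belowOut_eq S G K L (σ (belowOut S K L w)) w (hσ _)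
  conv_rhs => rw [← hg]
  exact (hinv g _).symm

end DivBC

end Fermat.Agent.S55.G.DescH537
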