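/-
S55, layer G, leaf G-DESC (Galois descent for the `S`-idèle class group), helper537.
Part 3: Hilbert 90 for an abstract Galois group, base change `C_S(K) → C_S(L)` and the
descent theorem.

`K ⊂ L` number fields, `G` finite with `IsGaloisGroup G K L`, `S ≠ ∅`:
* `csBC S K L : C_S(K) →+ C_S(L)`, `csBC_injective`, `cRepr_csBC` (image is `G`-invariant);
* `exists_csBC_eq_of_invariant` : if `L/K` is unramified outside `S` (`eIdx K L w = 1` for all
  primes `w` of `L` not above `S`), every `G`-invariant class of `C_S(L)` comes from `C_S(K)`;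
* `galoisDescent` : both statements together: `C_S(K) ≃ C_S(L)^G`.
-/
import Mathlib
import Fermat.Agent.S55.G.Defs
import Fermat.Agent.S55.G.DescH537.Tensor
import Fermat.Agent.S55.G.DescH537.Div

set_option autoImplicit false
set_option linter.unusedSectionVars false

open scoped NumberField
open IsDedekindDomain

noncomputable section

namespace Fermat.Agent.S55.G.DescH537

section H90

/-- **Hilbert 90** for an abstract finite Galois group, additively: every 1-cocycle
`G → Lˣ` is a coboundary. -/
theorem hilbert90 (G K L : Type) [Group G] [Field K] [Field L] [Algebra K L]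
    [MulSemiringAction G L] [Finite G] [IsGaloisGroup G K L]
    (f : G → Additive Lˣ) (hf : ∀ g h, f (g * h) = f g + lRepr G L g (f h)) :
    ∃ y : Additive Lˣ, ∀ g, f g = lRepr G L g y - y := by
  have := IsGaloisGroup.finiteDimensional G K L
  let e := IsGaloisGroup.mulEquivAlgEquiv G K L
  have he : ∀ g x, e g x = g • x := IsGaloisGroup.mulEquivAlgEquiv_apply_apply G K L
  let f' : (L ≃ₐ[K] L) → Lˣ := fun σ => (f (e.symm σ)).toMul
  have hf' : groupCohomology.IsMulCocycle₁ f' := by
    intro σ τ
    change (f (e.symm (σ * τ))).toMul = σ • (f (e.symm τ)).toMul * (f (e.symm σ)).toMul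
    rw [map_mul, hf, toMul_add, mul_comm]
    congr 1
    apply Units.ext
    change ((lRepr G L (e.symm σ) (f (e.symm τ))).toMul : L) = σ ((f (e.symm τ)).toMul : L)
    rw [coe_lRepr_apply, ← he, e.apply_symm_apply]
  obtain ⟨x, hx⟩ := groupCohomology.isMulCoboundary₁_of_isMulCocycle₁_of_aut_to_units f' hf'
  refine ⟨Additive.ofMul x, fun g => ?_⟩
  have h1 := hx (e g)
  simp only [f', e.symm_apply_apply] at h1
  apply Additive.toMul.injective
  rw [toMul_sub, ← h1]
  congr 1

end H90

section Main

variable (S : Finset Nat.Primes) (G K L : Type) [Group G] [Field K] [Field L]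
  [NumberField K] [NumberField L] [Algebra K L] [MulSemiringAction G L]

/-- Base change on `J_S × Div^S`. -/
def jdBC : JD S K →+ JD S L := (jBC K L S).prodMap (divBC S K L)

@[simp] lemma jdBC_fst (x : JD S K) : (jdBC S K L x).1 = jBC K L S x.1 := rfl

@[simp] lemma jdBC_snd (x : JD S K) : (jdBC S K L x).2 = divBC S K L x.2 := rfl

/-- Base change is compatible with the diagonal embeddings. -/
lemma jdBC_diagHom (x : Additive Kˣ) :
    jdBC S K L (diagHom S K x) = diagHom S L (unitsBC K L x) :=
  Prod.ext (jBC_unitsDiag K L S x) (ordHom_unitsBC S K L x).symm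

lemma jdBC_injective : Function.Injective (jdBC S K L) := by
  intro a b hab
  exact Prod.ext (jBC_injective K L S (congrArg Prod.fst hab))
    (divBC_injective S K L (congrArg Prod.snd hab))

lemma jdBC_mem_principal (x : JD S K) (hx : x ∈ principal S K) :
    jdBC S K L x ∈ principal S L := by
  obtain ⟨y, rfl⟩ := hx
  exact ⟨unitsBC K L y, (jdBC_diagHom S K L y).symm⟩

/-- **Base change of `S`-idèle classes** `C_S(K) → C_S(L)`. -/
def csBC : CS S K →+ CS S L :=
  (Submodule.mapQ (principal S K) (principal S L) (jdBC S K L).toIntLinearMap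
    (fun x hx => jdBC_mem_principal S K L x hx)).toAddMonoidHom

lemma csBC_mk (x : JD S K) :
    csBC S K L (Submodule.Quotient.mk x) = Submodule.Quotient.mk (jdBC S K L x) := rfl

/-- The diagonal embedding `Lˣ → J_S(L) × Div^S(L)` is injective when `S ≠ ∅`. -/
lemma diagHom_injective (hS : S.Nonempty) : Function.Injective (diagHom S L) := by
  have hQ : Function.Injective (algebraMap ℚ (QS S)) := by
    obtain ⟨q, hq⟩ := hS
    have : Nontrivial (QS S) := by
      refine ⟨⟨0, 1, fun h => ?_⟩⟩
      have := congrFun h ⟨q, hq⟩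
      exact zero_ne_one this
    exact (algebraMap ℚ (QS S)).injective
  have hincl : Function.Injective (asDiag S L) :=
    Algebra.TensorProduct.includeLeft_injective (S := ℚ) hQ
  intro a b hab
  have h1 : unitsDiag S L a = unitsDiag S L b := congrArg Prod.fst hab
  apply Additive.toMul.injective
  apply Units.ext
  apply hincl
  rw [← coe_unitsDiag_apply, ← coe_unitsDiag_apply, h1]

variable [IsGaloisGroup G K L]

lemma jdRepr_jdBC (g : G) (x : JD S K) : jdRepr S G L g (jdBC S K L x) = jdBC S K L x :=
  Prod.ext (jRepr_jBC G K L S g x.1) (divRepr_divBC S G K L g x.2)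

/-- The image of base change consists of `G`-invariant classes. -/
lemma cRepr_csBC (g : G) (c : CS S K) : cRepr S G L g (csBC S K L c) = csBC S K L c := by
  obtain ⟨x, rfl⟩ := Submodule.Quotient.mk_surjective _ c
  rw [csBC_mk]
  change Submodule.Quotient.mk (jdRepr S G L g (jdBC S K L x)) = _
  rw [jdRepr_jdBC]

variable [Finite G]

/-- **Galois descent, injectivity**: `C_S(K) → C_S(L)` is injective (`S ≠ ∅`, `L/K` Galois). -/
theorem csBC_injective (S : Finset Nat.Primes) (G K L : Type) [Group G] [Field K] [Field L]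
    [NumberField K] [NumberField L] [Algebra K L] [MulSemiringAction G L]
    [IsGaloisGroup G K L] [Finite G] (hS : S.Nonempty) : Function.Injective (csBC S K L) := by
  rw [injective_iff_map_eq_zero]
  intro c hc
  obtain ⟨x, rfl⟩ := Submodule.Quotient.mk_surjective _ c
  rw [csBC_mk, Submodule.Quotient.mk_eq_zero] at hc
  obtain ⟨y, hy⟩ := hc
  change diagHom S L y = jdBC S K L x at hy
  have hinv : ∀ g : G, lRepr G L g y = y := by
    intro g
    apply diagHom_injective S L hS
    rw [diagHom_equivariant S G L g y, hy, jdRepr_jdBC]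
  obtain ⟨k, rfl⟩ := exists_unitsBC_eq_of_invariant G K L y hinv
  rw [← jdBC_diagHom] at hy
  have hx : x = diagHom S K k := (jdBC_injective S K L hy).symm
  rw [Submodule.Quotient.mk_eq_zero, hx]
  exact ⟨k, rfl⟩

/-- **Galois descent, surjectivity onto invariants**: if `L/K` is unramified outside `S`
(and `S ≠ ∅`), every `G`-invariant class of `C_S(L)` is the base change of a class of
`C_S(K)`. -/
theorem exists_csBC_eq_of_invariant (hS : S.Nonempty)
    (hunr : ∀ w : PrimeOut S L, eIdx K L w.1 = 1)
    (c : CS S L) (hc : ∀ g : G, cRepr S G L g c = c) : ∃ c' : CS S K, csBC S K L c' = c := by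
  obtain ⟨x, rfl⟩ := Submodule.Quotient.mk_surjective _ c
  -- the cocycle
  have hex : ∀ g : G, ∃ y : Additive Lˣ, diagHom S L y = jdRepr S G L g x - x := by
    intro g
    have h := hc g
    change Submodule.Quotient.mk (jdRepr S G L g x) = Submodule.Quotient.mk x at h
    rw [Submodule.Quotient.eq] at h
    exact h
  choose f hf using hex
  have hcoc : ∀ g h, f (g * h) = f g + lRepr G L g (f h) := by
    intro g h
    apply diagHom_injective S L hS
    rw [map_add, diagHom_equivariant S G L g, hf, hf, hf, map_mul, map_sub]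
    simp only [Module.End.mul_apply]
    abel
  obtain ⟨y, hy⟩ := hilbert90 G K L f hcoc
  -- the invariant representative
  have hx' : ∀ g : G, jdRepr S G L g (x - diagHom S L y) = x - diagHom S L y := by
    intro g
    have h1 := hf g
    rw [hy g, map_sub, diagHom_equivariant S G L g] at h1
    rw [map_sub]
    have h2 : jdRepr S G L g x - jdRepr S G L g (diagHom S L y) =
        x - diagHom S L y := by
      rw [sub_eq_sub_iff_add_eq_add]
      rw [sub_eq_sub_iff_add_eq_add] at h1
      rw [← h1, add_comm]
    exact h2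
  have hj : ∀ g : G, jRepr G S L g (x - diagHom S L y).1 = (x - diagHom S L y).1 :=
    fun g => congrArg Prod.fst (hx' g)
  have hd : ∀ g : G, divRepr S G L g (x - diagHom S L y).2 = (x - diagHom S L y).2 :=
    fun g => congrArg Prod.snd (hx' g)
  obtain ⟨j', hj'⟩ := exists_jBC_eq_of_invariant G K L S _ hj
  obtain ⟨d', hd'⟩ := exists_divBC_eq_of_invariant S G K L hunr _ hd
  refine ⟨Submodule.Quotient.mk (j', d'), ?_⟩
  rw [csBC_mk]
  have hxe : jdBC S K L (j', d') = x - diagHom S L y := Prod.ext hj' hd'
  rw [hxe, Submodule.Quotient.eq]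
  refine ⟨-y, ?_⟩
  change diagHom S L (-y) = _
  rw [map_neg]
  abel

/-- **Galois descent** for the `S`-idèle class group: for `L/K` Galois with group `G`,
unramified outside `S ≠ ∅`, base change identifies `C_S(K)` with the `G`-invariants of
`C_S(L)`. -/
theorem galoisDescent (hS : S.Nonempty) (hunr : ∀ w : PrimeOut S L, eIdx K L w.1 = 1) :
    Function.Injective (csBC S K L) ∧
      ∀ c : CS S L, (∀ g : G, cRepr S G L g c = c) ↔ c ∈ Set.range (csBC S K L) := by
  refine ⟨csBC_injective S G K L hS, fun c => ⟨fun hc => ?_, ?_⟩⟩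
  · exact exists_csBC_eq_of_invariant S G K L hS hunr c hc
  · rintro ⟨c', rfl⟩ g
    exact cRepr_csBC S G K L g c'

/-- **Galois descent** as a linear equivalence `C_S(K) ≃ C_S(L)^G`. -/
def csDescentEquiv (hS : S.Nonempty) (hunr : ∀ w : PrimeOut S L, eIdx K L w.1 = 1) :
    CS S K ≃ₗ[ℤ] (cRepr S G L).invariants :=
  LinearEquiv.ofBijective
    ((csBC S K L).toIntLinearMap.codRestrict (cRepr S G L).invariants
      (fun c g => cRepr_csBC S G K L g c))
    ⟨fun a b hab => csBC_injective S G K L hS (congrArg Subtype.val hab),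
      fun c => by
        obtain ⟨c', hc'⟩ := exists_csBC_eq_of_invariant S G K L hS hunr c.1 c.2
        exact ⟨c', Subtype.ext hc'⟩⟩

@[simp] lemma csDescentEquiv_apply_coe (hS : S.Nonempty)
    (hunr : ∀ w : PrimeOut S L, eIdx K L w.1 = 1) (c : CS S K) :
    ((csDescentEquiv S G K L hS hunr c : (cRepr S G L).invariants) : CS S L) = csBC S K L c :=
  rfl

end Main

end Fermat.Agent.S55.G.DescH537
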