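/-
S55, layer G, leaf G-DESC, helper537.  Part 4: `descent : DescentSpec` (helper421's
`G/Spec.lean`), from `DescH537.galoisDescent` applied to the Galois group `N` of `L/L'`.
-/
import Fermat.Agent.S55.G.Spec
import Fermat.Agent.S55.G.DescH537.Desc

set_option autoImplicit false
set_option linter.unusedSectionVars false

open scoped NumberField TensorProduct
open IsDedekindDomain

noncomputable section

namespace Fermat.Agent.S55.G.DescH537

section Adapter

variable (S : Finset Nat.Primes) (G L L' : Type) [Group G] [Finite G] [Field L] [NumberField L]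
  [Field L'] [NumberField L'] [Algebra L' L] [MulSemiringAction G L] [FaithfulSMul G L]
  (N : Subgroup G)

/-- A subgroup `N` whose fixed field is (the image of) `L'` is a Galois group of `L/L'`. -/
theorem isGaloisGroup_of_fixed
    (hfix : ∀ x : L, (∀ n : N, (n : G) • x = x) ↔ x ∈ (algebraMap L' L).range) :
    IsGaloisGroup N L' L where
  faithful := ⟨fun {n n'} h => Subtype.ext (eq_of_smul_eq_smul (α := L) (fun x => h x))⟩
  commutes := ⟨fun n a x => by
    rw [Algebra.smul_def, Algebra.smul_def, smul_mul']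
    congr 1
    exact (hfix _).2 ⟨a, rfl⟩ n⟩
  isInvariant := ⟨fun x hx => by
    obtain ⟨a, ha⟩ := (hfix x).1 hx
    exact ⟨a, ha⟩⟩

/-- Trivial inertia outside `S` gives ramification index `1` outside `S`. -/
theorem eIdx_eq_one_of_isUnramOut [IsGaloisGroup N L' L] (hunr : IsUnramOut S G L)
    (w : PrimeOut S L) : eIdx L' L w.1 = 1 := by
  have hp : (below L' L w.1).asIdeal ≠ ⊥ := (below L' L w.1).ne_bot
  have := w.1.isPrime
  have := (below L' L w.1).isPrime
  have hGal : IsGaloisGroup N (𝓞 L') (𝓞 L) :=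
    IsGaloisGroup.of_isFractionRing N (𝓞 L') (𝓞 L) L' L
  have h1 : eIdx L' L w.1 = w.1.asIdeal.ramificationIdx (𝓞 L') :=
    Ideal.ramificationIdx'_eq_ramificationIdx _ _ hp
  have h2 := Ideal.ramificationIdxIn_eq_ramificationIdx (below L' L w.1).asIdeal w.1.asIdeal N
  have h3 := Ideal.card_inertia_eq_ramificationIdxIn (G := N) (below L' L w.1).asIdeal
    w.1.asIdeal
  rw [h1, ← h2, ← h3]
  have htriv : ∀ n : N, n ∈ Ideal.inertia N w.1.asIdeal → n = 1 := by
    intro n hn
    have hx : ∀ x : L, (n : G) • x = x := hunr w.1 w.2 (n : G) (fun x => hn x)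
    apply Subtype.ext
    refine eq_of_smul_eq_smul (α := L) (fun x => ?_)
    rw [hx, Subgroup.coe_one, one_smul]
  have hbot : Ideal.inertia N w.1.asIdeal = ⊥ := by
    rw [eq_bot_iff]
    intro n hn
    exact Subgroup.mem_bot.2 (htriv n hn)
  rw [hbot]
  exact Subgroup.card_bot

/-- The action of the subgroup `N` on `C_S(L)` is the restriction of the action of `G`. -/
lemma cRepr_subgroup (n : N) (c : CS S L) : cRepr S N L n c = cRepr S G L (n : G) c := by
  obtain ⟨x, rfl⟩ := Submodule.Quotient.mk_surjective _ c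
  change Submodule.Quotient.mk (jdRepr S N L n x) = Submodule.Quotient.mk (jdRepr S G L (n : G) x)
  congr 1

variable [N.Normal] [MulSemiringAction (G ⧸ N) L']

lemma asBC_equivariant
    (hcompat : ∀ (g : G) (x : L'), algebraMap L' L ((g : G ⧸ N) • x) = g • algebraMap L' L x)
    (g : G) (z : AS S L') :
    asBC L' L S (asAut S (G ⧸ N) L' (g : G ⧸ N) z) = asAut S G L g (asBC L' L S z) := by
  induction z using TensorProduct.induction_on with
  | zero => simp
  | tmul x y => simp [hcompat]
  | add a b ha hb => simp only [map_add, ha, hb]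

lemma jBC_equivariant
    (hcompat : ∀ (g : G) (x : L'), algebraMap L' L ((g : G ⧸ N) • x) = g • algebraMap L' L x)
    (g : G) (j : Additive (AS S L')ˣ) :
    jBC L' L S (jRepr (G ⧸ N) S L' (g : G ⧸ N) j) = jRepr G S L g (jBC L' L S j) := by
  apply Additive.toMul.injective
  apply Units.ext
  rw [coe_jBC_apply, coe_jRepr_apply, coe_jRepr_apply, coe_jBC_apply,
    asBC_equivariant S G L L' N hcompat]

lemma below_primeSMul_quot
    (hcompat : ∀ (g : G) (x : L'), algebraMap L' L ((g : G ⧸ N) • x) = g • algebraMap L' L x)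
    (g : G) (w : HeightOneSpectrum (𝓞 L)) :
    below L' L (primeSMul G g w) = primeSMul (G ⧸ N) (g : G ⧸ N) (below L' L w) := by
  have hint : ∀ (h : G) (x : 𝓞 L'), algebraMap (𝓞 L') (𝓞 L) ((h : G ⧸ N) • x) =
      h • algebraMap (𝓞 L') (𝓞 L) x := by
    intro h x
    apply NumberField.RingOfIntegers.ext
    exact hcompat h (x : L')
  apply HeightOneSpectrum.ext
  ext x
  rw [below_asIdeal, Ideal.under_def, Ideal.mem_comap, mem_primeSMul_iff, mem_primeSMul_iff,
    below_asIdeal, Ideal.under_def, Ideal.mem_comap, ← QuotientGroup.mk_inv, hint]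

lemma belowOut_primeOutMap_quot
    (hcompat : ∀ (g : G) (x : L'), algebraMap L' L ((g : G ⧸ N) • x) = g • algebraMap L' L x)
    (g : G) (w : PrimeOut S L) :
    belowOut S L' L (primeOutMap S G L g w) =
      primeOutMap S (G ⧸ N) L' (g : G ⧸ N) (belowOut S L' L w) :=
  Subtype.ext (below_primeSMul_quot G L L' N hcompat g w.1)

lemma divBC_equivariant
    (hcompat : ∀ (g : G) (x : L'), algebraMap L' L ((g : G ⧸ N) • x) = g • algebraMap L' L x)
    (hunr : ∀ w : PrimeOut S L, eIdx L' L w.1 = 1) (g : G) (d : PrimeOut S L' →₀ ℤ) :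
    divBC S L' L (divRepr S (G ⧸ N) L' (g : G ⧸ N) d) = divRepr S G L g (divBC S L' L d) := by
  ext w
  have hw : w = primeOutMap S G L g (primeOutMap S G L g⁻¹ w) := by
    rw [← primeOutMap_mul, mul_inv_cancel, primeOutMap_one]
  rw [hw, divRepr_apply_apply, divBC_apply, divBC_apply, hunr, hunr,
    belowOut_primeOutMap_quot S G L L' N hcompat, divRepr_apply_apply]

end Adapter

/-- **G-DESC**: Galois descent for the `S`-idèle class group, in the form of helper421's
interface. -/
theorem descent : DescentSpec := by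
  intro S G L L' _ _ _ _ _ _ _ _ _ N _ _ hS hunr hfix hcompat
  have hGal : IsGaloisGroup N L' L := isGaloisGroup_of_fixed G L L' N hfix
  have he : ∀ w : PrimeOut S L, eIdx L' L w.1 = 1 := eIdx_eq_one_of_isUnramOut S G L L' N hunr
  refine ⟨csBC S L' L, csBC_injective S N L' L hS, ?_, ?_, ?_⟩
  · intro g c
    obtain ⟨x, rfl⟩ := Submodule.Quotient.mk_surjective _ c
    change Submodule.Quotient.mk (jdBC S L' L (jdRepr S (G ⧸ N) L' (g : G ⧸ N) x)) =
      Submodule.Quotient.mk (jdRepr S G L g (jdBC S L' L x))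
    congr 1
    exact Prod.ext (jBC_equivariant S G L L' N hcompat g x.1)
      (divBC_equivariant S G L L' N hcompat he g x.2)
  · intro c
    constructor
    · intro hc
      exact exists_csBC_eq_of_invariant S N L' L hS he c
        (fun n => (cRepr_subgroup S G L N n c).trans (hc n))
    · rintro ⟨c', rfl⟩ n
      rw [← cRepr_subgroup S G L N n]
      exact cRepr_csBC S N L' L n c'
  · intro y
    change Submodule.Quotient.mk (jdBC S L' L (y, 0)) = Submodule.Quotient.mk (jMap S L' L y, 0)
    congr 1
    exact Prod.ext rfl (map_zero (divBC S L' L))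

end Fermat.Agent.S55.G.DescH537
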